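import Fermat.Agent.AnkenyArtinChowla.Field
import Fermat.Agent.Regular.VandiverUnits
import Fermat.Agent.Root.SummaryIrregularPrimes

/-!
# The congruence of Ankeny, Artin and Chowla

Kummer's logarithmic derivative of weight `m = (p - 1)/2` is `-b / t` at `(t + b √p)/2` and, by
Voronoi's congruence, `-2 B_m` at the ratio of the cyclotomic units over non-residues and residues.
-/

set_option autoImplicit false
set_option linter.style.haveILetI false

noncomputable section

open NumberField Finset Polynomial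
open FA.OrderTheta (resSet nonresSet)
open scoped Classical

namespace FA.AnkenyArtinChowla

variable {p : ℕ} [hp : Fact p.Prime]

/-! ### Moments -/

theorem momentAt_mul (n : ℕ) : ∀ F h : (ZMod p)[X],
    (∀ i < n, FA.Regular.momentAt p i F = 0) →
      FA.Regular.momentAt p n (F * h) = FA.Regular.momentAt p n F * h.eval 1 := by
  induction n with
  | zero => intro F h _; simp [FA.Regular.momentAt_zero]
  | succ n ih =>
    intro F h hF
    rw [FA.Regular.momentAt_succ, FA.Regular.eulerOp_mul, map_add,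
      ih _ h fun i hi => by rw [← FA.Regular.momentAt_succ]; exact hF _ (by omega),
      ih F _ fun i hi => hF i (by omega), hF n (by omega), zero_mul, add_zero,
      ← FA.Regular.momentAt_succ]

theorem eulerOp_C_mul (c : ZMod p) (F : (ZMod p)[X]) :
    FA.Regular.eulerOp p (C c * F) = C c * FA.Regular.eulerOp p F := by
  rw [C_mul', C_mul', map_smul]

theorem momentAt_C_mul (j : ℕ) (c : ZMod p) (F : (ZMod p)[X]) :
    FA.Regular.momentAt p j (C c * F) = c * FA.Regular.momentAt p j F := by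
  rw [C_mul', map_smul, smul_eq_mul]

theorem cast_quadraticChar (hp2 : p ≠ 2) (a : ZMod p) :
    ((quadraticChar (ZMod p) a : ℤ) : ZMod p) = a ^ (p / 2) := by
  have := quadraticChar_eq_pow_of_char_ne_two'
    ((ZMod.ringChar_zmod_n p).trans_ne hp2) a
  rwa [ZMod.card] at this

variable (p) in
/-- The Gauss sum as a polynomial. -/
def gaussPoly : (ZMod p)[X] :=
  ∑ a : ZMod p, C (((quadraticChar (ZMod p) a : ℤ)) : ZMod p) * X ^ a.val

theorem momentAt_gaussPoly (hp2 : p ≠ 2) {i : ℕ} (hi : i ≤ p / 2) :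
    FA.Regular.momentAt p i (gaussPoly p) = if i = p / 2 then -1 else 0 := by
  have hodd := (hp.out.eq_two_or_odd).resolve_left hp2
  simp only [gaussPoly, map_sum, momentAt_C_mul, FA.Regular.momentAt_X_pow,
    ZMod.natCast_zmod_val, cast_quadraticChar hp2, ← pow_add]
  split_ifs with h
  · subst h
    rw [show p / 2 + p / 2 = p - 1 by omega,
      ← Finset.add_sum_erase univ _ (mem_univ (0 : ZMod p)),
      zero_pow (by have := hp.out.two_le; omega), zero_add,
      sum_congr rfl fun a ha => ZMod.pow_card_sub_one_eq_one (mem_erase.1 ha).1, sum_const,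
      card_erase_of_mem (mem_univ _), card_univ, ZMod.card, nsmul_one, Nat.cast_sub hp.out.one_le,
      ZMod.natCast_self]
    simp
  · exact FiniteField.sum_pow_lt_card_sub_one (ZMod p) _ (by rw [ZMod.card]; omega)

/-! ### The two units -/

variable (p) in
/-- A field of `p`-th roots of unity. -/
abbrev RootField := CyclotomicField p ℚ

instance : IsCyclotomicExtension {p} ℚ (RootField p) :=
  haveI : NeZero (p : ℚ) := ⟨Nat.cast_ne_zero.2 hp.out.ne_zero⟩
  CyclotomicField.isCyclotomicExtension p ℚ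

/-- The embedding with `ζ ↦ exp (2 π i / p)`. -/
theorem exists_emb : ∃ ι : RootField p →+* ℂ,
    ι ((FA.Ext.zetaInt p (RootField p) : RootField p)) = ZMod.stdAddChar (1 : ZMod p) := by
  have hz : IsPrimitiveRoot (ZMod.stdAddChar (1 : ZMod p) : ℂ) p := by
    have hpow : (ZMod.stdAddChar (1 : ZMod p) : ℂ) ^ p = 1 := by
      rw [← AddChar.map_nsmul_eq_pow, nsmul_one, ZMod.natCast_self, AddChar.map_zero_eq_one]
    have ho := IsPrimitiveRoot.orderOf (ZMod.stdAddChar (1 : ZMod p) : ℂ)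
    rwa [orderOf_eq_prime hpow fun h => one_ne_zero (ZMod.injective_stdAddChar
      (h.trans (AddChar.map_zero_eq_one _).symm))] at ho
  have hirr := cyclotomic.irreducible_rat hp.out.pos
  set e := (IsCyclotomicExtension.zeta_spec p ℚ (RootField p)).embeddingsEquivPrimitiveRoots ℂ hirr
  refine ⟨(e.symm ⟨_, (mem_primitiveRoots hp.out.pos).2 hz⟩).toRingHom, ?_⟩
  have h := congrArg Subtype.val (e.apply_symm_apply ⟨_, (mem_primitiveRoots hp.out.pos).2 hz⟩)
  exact h

variable (ι : RootField p →+* ℂ)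
  (hι : ι ((FA.Ext.zetaInt p (RootField p) : RootField p)) = ZMod.stdAddChar (1 : ZMod p))

variable (p) in
/-- The Gauss sum. -/
def gaussInt : 𝓞 (RootField p) :=
  aeval (FA.Ext.zetaInt p (RootField p))
    (∑ a : ZMod p, C (quadraticChar (ZMod p) a : ℤ) * X ^ a.val)

theorem redHom_gaussInt :
    FA.Regular.redHom p (RootField p) (gaussInt p) =
      Ideal.Quotient.mk (FA.Regular.truncIdeal p) (gaussPoly p) := by
  rw [gaussInt, FA.Regular.redHom_aeval]
  simp [gaussPoly, Polynomial.map_sum]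

include hι in
theorem map_pow_zeta (a : ZMod p) :
    ι ((FA.Ext.zetaInt p (RootField p) : RootField p)) ^ a.val = ZMod.stdAddChar a := by
  rw [hι, ← AddChar.map_nsmul_eq_pow, nsmul_one, ZMod.natCast_zmod_val]

include hι in
theorem map_gaussInt (hp4 : p % 4 = 1) :
    ι ((gaussInt p : RootField p)) = (Real.sqrt p : ℂ) := by
  have h := FA.Summary.quadraticGaussSum_sign p (by omega)
  rw [if_pos hp4] at h
  rw [← h, gaussInt]
  simp only [map_sum]
  refine sum_congr rfl fun a _ => ?_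
  simp [map_pow_zeta ι hι a]

/-- The cyclotomic unit of a residue. -/
def cycUnit (a : ZMod p) : (𝓞 (RootField p))ˣ :=
  if h : a = 0 then 1
  else FA.Regular.cycU p (RootField p) (a := a.val) (by rwa [ZMod.natCast_zmod_val])

include hι in
theorem map_prod_cycUnit {S : Finset (ZMod p)} (hS : (0 : ZMod p) ∉ S) :
    ι (((∏ a ∈ S, cycUnit a : (𝓞 (RootField p))ˣ) : 𝓞 (RootField p)) : RootField p) *
        (1 - ZMod.stdAddChar (1 : ZMod p)) ^ #S =
      ∏ a ∈ S, (1 - ZMod.stdAddChar a : ℂ) := by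
  rw [Units.coe_prod]
  simp only [map_prod]
  rw [← prod_const, ← prod_mul_distrib]
  refine prod_congr rfl fun a ha => ?_
  rw [cycUnit, dif_neg fun h => hS (by rwa [h] at ha), ← map_pow_zeta ι hι a]
  simp only [FA.Regular.cycU, IsUnit.unit_spec, map_sum, map_pow, hι]
  rw [mul_comm]
  linear_combination -(geom_sum_mul (ZMod.stdAddChar (1 : ZMod p) : ℂ) a.val)

theorem logDer_prod_cycUnit (hp4 : p % 4 = 1) {j : ℕ} (hj : j + 2 = p / 2)
    {S : Finset (ZMod p)} (hS : (0 : ZMod p) ∉ S) :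
    FA.Regular.logDer p (RootField p) (j + 1) (∏ a ∈ S, cycUnit a) =
      ∑ a ∈ S, (FA.OrderTheta.voronoiSum p a.val (p / 2) : ZMod p) := by
  have h1 : j + 1 + 3 ≤ p := by omega
  rw [← FA.Regular.toAdd_logDerHom p (RootField p) h1, map_prod, toAdd_prod]
  refine sum_congr rfl fun a ha => ?_
  rw [FA.Regular.toAdd_logDerHom, cycUnit, dif_neg fun h => hS (by rwa [h] at ha),
    FA.Regular.logDer_cycU p (RootField p) _ (show j + 4 ≤ p by omega), FA.OrderTheta.voronoiSum,
    show p / 2 - 1 = j + 1 by omega]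
  push_cast
  rfl

/-- Voronoi's congruence with numerator and denominator. -/
theorem voronoi_zmod (hp5 : 5 ≤ p) {m : ℕ} (hm : 2 ≤ m) (hev : Even m) {a : ℕ}
    (ha : (a : ZMod p) ≠ 0) :
    ((a : ZMod p) ^ m - 1) * ((_root_.bernoulli m).num : ZMod p) =
      ((_root_.bernoulli m).den : ZMod p) * m * (FA.OrderTheta.voronoiSum p a m : ZMod p) := by
  obtain ⟨τ, hτ, hE⟩ := FA.OrderTheta.voronoi_congruence hp5 hm hev ha
  set B := _root_.bernoulli m
  set V := FA.OrderTheta.voronoiSum p a m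
  have hz : ((((a : ℤ) ^ m - 1) * B.num * τ.den : ℤ) : ℚ) =
      ((((B.den : ℤ) * m * V * τ.den + (p : ℤ) * m * B.den * τ.num) : ℤ) : ℚ) := by
    push_cast
    rw [← Rat.mul_den_eq_num B, ← Rat.mul_den_eq_num τ]
    have hm0 : (m : ℚ) ≠ 0 := Nat.cast_ne_zero.2 (by omega)
    field_simp at hE
    linear_combination ((B.den : ℚ) * τ.den) * hE
  have h := congrArg (Int.cast : ℤ → ZMod p) (Int.cast_injective hz)
  push_cast [ZMod.natCast_self] at h
  refine mul_right_cancel₀ (b := (τ.den : ZMod p)) ?_ ?_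
  · rwa [Ne, ZMod.natCast_eq_zero_iff]
  · linear_combination h

theorem not_dvd_den_bernoulli (hp5 : 5 ≤ p) {m : ℕ} (hm : 2 ≤ m) (hev : Even m)
    (hdvd : ¬ p - 1 ∣ m) : ¬ p ∣ (_root_.bernoulli m).den := by
  obtain ⟨a, ha, ham⟩ := FA.OrderTheta.exists_multiplier (p := p) hdvd
  intro hd
  have h := voronoi_zmod hp5 hm hev ha
  rw [(ZMod.natCast_eq_zero_iff _ _).2 hd, zero_mul, zero_mul, mul_eq_zero, sub_eq_zero,
    ZMod.intCast_zmod_eq_zero_iff_dvd, Int.natCast_dvd] at h
  rcases h with h | h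
  · exact ham h
  · exact hp.out.one_lt.ne' (Nat.eq_one_of_dvd_coprimes (_root_.bernoulli m).reduced h hd)

/-! ### The congruence -/

theorem congruence (hp4 : p % 4 = 1) {F : Type*} [Field F] [NumberField F]
    (hF : Module.finrank ℚ F = 2) (φ : F →+* ℝ) {s : F} (hs : φ s = Real.sqrt p) {ε : (𝓞 F)ˣ}
    (hgen : ∀ u : (𝓞 F)ˣ, ∃ n : ℤ, u = ε ^ n ∨ u = -ε ^ n) (h1 : 1 < φ ((ε : 𝓞 F) : F))
    {t b : ℤ} (htb : 2 * φ ((ε : 𝓞 F) : F) = t + b * Real.sqrt p) :
    ¬ p ∣ (_root_.bernoulli (p / 2)).den ∧ ¬ (p : ℤ) ∣ t ∧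
      (p : ℤ) ∣ (classNumber F : ℤ) * b * (_root_.bernoulli (p / 2)).den -
        t * (_root_.bernoulli (p / 2)).num := by
  have hp5 : 5 ≤ p := by have := hp.out.two_le; omega
  have hev : Even (p / 2) := ⟨p / 4, by omega⟩
  have hm2 : 2 ≤ p / 2 := by omega
  have hden := not_dvd_den_bernoulli hp5 hm2 hev fun h => by
    have := Nat.le_of_dvd (by omega) h; omega
  obtain ⟨ι, hι⟩ := exists_emb (p := p)
  obtain ⟨f, hf⟩ := exists_lift hF φ hs ι (map_gaussInt ι hι hp4)
  set u : (𝓞 (RootField p))ˣ :=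
    Units.map (RingOfIntegers.mapRingHom f).toMonoidHom ε with hu
  have hιu : ι ((u : 𝓞 (RootField p)) : RootField p) = ((φ ((ε : 𝓞 F) : F) : ℝ) : ℂ) :=
    hf ((ε : 𝓞 F) : F)
  have hinj : Function.Injective fun x : 𝓞 (RootField p) => ι (x : RootField p) :=
    ι.injective.comp RingOfIntegers.coe_injective
  have h2u : 2 * (u : 𝓞 (RootField p)) = (t : 𝓞 (RootField p)) + b * gaussInt p := hinj (by
    simp only [map_mul, map_add, map_intCast, map_ofNat, hιu, map_gaussInt ι hι hp4]
    exact_mod_cast htb)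
  -- at the unit
  obtain ⟨j, hj⟩ : ∃ j, j + 2 = p / 2 := ⟨p / 2 - 2, by omega⟩
  have hj3 : j + 1 + 3 ≤ p := by omega
  have h2 : (2 : ZMod p) ≠ 0 := by
    intro h
    have := Nat.le_of_dvd two_pos ((ZMod.natCast_eq_zero_iff 2 p).1 (by exact_mod_cast h))
    omega
  set P : (ZMod p)[X] := C (2⁻¹ : ZMod p) * (C (t : ZMod p) + C (b : ZMod p) * gaussPoly p) with hP
  set Q := FA.Regular.repPoly p (RootField p)
    ((u⁻¹ : (𝓞 (RootField p))ˣ) : 𝓞 (RootField p)) with hQdef
  have hPred : Ideal.Quotient.mk (FA.Regular.truncIdeal p) P =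
      FA.Regular.redHom p (RootField p) (u : 𝓞 (RootField p)) := by
    have h := congrArg (FA.Regular.redHom p (RootField p)) h2u
    simp only [map_mul, map_add, map_intCast, map_ofNat, redHom_gaussInt] at h
    rw [hP, map_mul, map_add, map_mul, map_intCast, map_intCast, map_intCast, map_intCast, ← h,
      ← mul_assoc, ← map_ofNat (Ideal.Quotient.mk (FA.Regular.truncIdeal p)) 2, ← map_mul,
      ← map_ofNat (C : ZMod p →+* (ZMod p)[X]) 2, ← map_mul, inv_mul_cancel₀ h2, map_one, map_one,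
      one_mul]
  have hG1 : (gaussPoly p).eval 1 = 0 := by
    rw [← FA.Regular.momentAt_zero, momentAt_gaussPoly (by omega) (Nat.zero_le _),
      if_neg (by omega)]
  have hPQ : P.eval 1 * Q.eval 1 = 1 := by
    rw [← eval_mul, ← FA.Regular.momentAt_zero, FA.Regular.momentAt_congr p (g := 1) (by omega) (by
      rw [map_mul, hPred, hQdef, FA.Regular.mk_repPoly, ← map_mul, Units.mul_inv, map_one,
        map_one]),
      FA.Regular.momentAt_zero, eval_one]
  have hP1 : P.eval 1 = 2⁻¹ * (t : ZMod p) := by simp [hP, hG1]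
  rw [hP1] at hPQ
  have ht : (t : ZMod p) ≠ 0 := fun h => by simp [h] at hPQ
  have hL : (t : ZMod p) * FA.Regular.logDer p (RootField p) (j + 1) u = -(b : ZMod p) := by
    rw [FA.Regular.logDer_eq p (RootField p) hj3 u hPred (FA.Regular.mk_repPoly p _ _).symm.symm,
      ← hQdef]
    have he : FA.Regular.eulerOp p P =
        C (2⁻¹ * (b : ZMod p)) * FA.Regular.eulerOp p (gaussPoly p) := by
      rw [hP, eulerOp_C_mul, map_add, eulerOp_C_mul, C_mul]
      simp [FA.Regular.eulerOp_apply, mul_assoc]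
    rw [he, mul_assoc, momentAt_C_mul, momentAt_mul _ _ _ fun i hi => by
      rw [← FA.Regular.momentAt_succ, momentAt_gaussPoly (by omega) (by omega),
        if_neg (by omega)],
      ← FA.Regular.momentAt_succ, momentAt_gaussPoly (by omega) (by omega), if_pos (by omega)]
    linear_combination (-(b : ZMod p)) * hPQ
  -- at the ratio
  set N := ∏ a ∈ nonresSet p, cycUnit a
  set R := ∏ a ∈ resSet p, cycUnit a
  have h0N : (0 : ZMod p) ∉ nonresSet p := by simp [nonresSet]
  have h0R : (0 : ZMod p) ∉ resSet p := by simp [resSet]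
  have hcards : #(resSet p) = #(nonresSet p) ∧ #(resSet p) + #(nonresSet p) = p - 1 := by
    have h1 := FA.OrderTheta.sum_split_quadratic (p := p)
      fun a => (quadraticChar (ZMod p) a : ℂ)
    rw [← Int.cast_sum, quadraticChar_sum_zero ((ZMod.ringChar_zmod_n p).trans_ne (by omega)),
      sum_congr rfl fun a (ha : a ∈ resSet p) =>
        show (quadraticChar (ZMod p) a : ℂ) = 1 by rw [(mem_filter.1 ha).2]; simp,
      sum_congr (s₁ := nonresSet p) rfl fun a (ha : a ∈ nonresSet p) =>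
        show (quadraticChar (ZMod p) a : ℂ) = -1 by rw [(mem_filter.1 ha).2]; simp] at h1
    simp only [MulChar.map_zero, Int.cast_zero, sum_const, nsmul_one, smul_neg, zero_add] at h1
    have h3 := FA.OrderTheta.sum_split_quadratic (p := p) fun _ => (1 : ℂ)
    simp only [sum_const, nsmul_one, card_univ, ZMod.card] at h3
    have e1 : (#(resSet p) : ℂ) = #(nonresSet p) := by linear_combination -h1
    have e3 : p = 1 + #(resSet p) + #(nonresSet p) := by exact_mod_cast h3
    exact ⟨by exact_mod_cast e1, by omega⟩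
  obtain ⟨T, B, -, hRp, hNp⟩ := FA.Summary.cyclotomic_product_halves p hp4
  set x : ℝ := φ ((ε : 𝓞 F) : F)
  set rR : ℝ := ((p : ℝ) * T + B * Real.sqrt p) / 2
  set rN : ℝ := ((p : ℝ) * T - B * Real.sqrt p) / 2
  have hRr : ∏ a ∈ resSet p, (1 - ZMod.stdAddChar a : ℂ) = (rR : ℂ) := by
    rw [hRp]; push_cast [rR]; rfl
  have hNr : ∏ a ∈ nonresSet p, (1 - ZMod.stdAddChar a : ℂ) = (rN : ℂ) := by
    rw [hNp]; push_cast [rN]; rfl
  have hne : ∀ S : Finset (ZMod p), (0 : ZMod p) ∉ S → ∀ a ∈ S,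
      (1 - ZMod.stdAddChar a : ℂ) ≠ 0 := fun S hS a ha h => hS (by
    rwa [← ZMod.injective_stdAddChar ((sub_eq_zero.1 h).symm.trans
      (AddChar.map_zero_eq_one _).symm)])
  have hlogs : ∀ (S : Finset (ZMod p)) (r : ℝ), (0 : ZMod p) ∉ S →
      ∏ a ∈ S, (1 - ZMod.stdAddChar a : ℂ) = (r : ℂ) →
      ∑ a ∈ S, Real.log ‖1 - (ZMod.stdAddChar a : ℂ)‖ = Real.log |r| ∧ r ≠ 0 := by
    intro S r hS hr
    refine ⟨?_, fun h => Finset.prod_ne_zero_iff.2 (hne S hS) (by rw [hr, h]; simp)⟩
    rw [← Real.log_prod fun a ha => norm_ne_zero_iff.2 (hne S hS a ha), ← norm_prod, hr,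
      Complex.norm_real, Real.norm_eq_abs]
  obtain ⟨hlR, hR0⟩ := hlogs _ rR h0R hRr
  obtain ⟨hlN, hN0⟩ := hlogs _ rN h0N hNr
  have hform := two_mul_classNumber_mul_log hp4 hF φ hs hgen h1 (RootField p) f
  rw [hlN, hlR] at hform
  set k := 2 * classNumber F with hk
  have hx0 : 0 < x := zero_lt_one.trans h1
  have habs : |x ^ k * rR| = |rN| := by
    refine Real.log_injOn_pos (abs_pos.2 (mul_ne_zero (pow_ne_zero _ hx0.ne') hR0))
      (abs_pos.2 hN0) ?_
    rw [abs_mul, Real.log_mul (abs_ne_zero.2 (pow_ne_zero _ hx0.ne')) (abs_ne_zero.2 hR0),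
      abs_of_pos (pow_pos hx0 _), Real.log_pow, hk]
    push_cast
    linear_combination hform
  have hsign : u ^ k * R = N ∨ u ^ k * R = -N := by
    have hc : (1 - ZMod.stdAddChar (1 : ZMod p) : ℂ) ^ #(resSet p) ≠ 0 := pow_ne_zero _ fun h =>
      one_ne_zero (ZMod.injective_stdAddChar ((sub_eq_zero.1 h).symm.trans
        (AddChar.map_zero_eq_one _).symm))
    have eR := map_prod_cycUnit ι hι h0R
    have eN := map_prod_cycUnit ι hι h0N
    rw [hRr] at eR
    rw [hNr, ← hcards.1] at eN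
    rcases abs_eq_abs.1 habs with h | h
    · refine Or.inl (Units.ext (hinj (mul_right_cancel₀ hc ?_)))
      simp only [Units.val_mul, Units.val_pow_eq_pow_val, map_mul, map_pow, hιu]
      rw [mul_assoc, eR, eN, ← Complex.ofReal_pow, ← Complex.ofReal_mul, h]
    · refine Or.inr (Units.ext (hinj (mul_right_cancel₀ hc ?_)))
      simp only [Units.val_mul, Units.val_neg, Units.val_pow_eq_pow_val, map_mul, map_pow,
        map_neg, hιu]
      rw [mul_assoc, eR, neg_mul, eN, ← Complex.ofReal_pow, ← Complex.ofReal_mul, h,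
        Complex.ofReal_neg]
  have hneg : FA.Regular.logDer p (RootField p) (j + 1) (-N) =
      FA.Regular.logDer p (RootField p) (j + 1) N := by
    rw [← neg_one_mul N, FA.Regular.logDer_mul p _ hj3,
      FA.Regular.logDer_eq_zero_of_congr_int p _ hj3 (-1) (n := -1) (by simp), zero_add]
  have hrel : (k : ZMod p) * FA.Regular.logDer p (RootField p) (j + 1) u =
      ∑ a ∈ nonresSet p, (FA.OrderTheta.voronoiSum p a.val (p / 2) : ZMod p) -
        ∑ a ∈ resSet p, (FA.OrderTheta.voronoiSum p a.val (p / 2) : ZMod p) := by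
    rw [← logDer_prod_cycUnit hp4 hj h0N, ← logDer_prod_cycUnit hp4 hj h0R, eq_sub_iff_add_eq,
      ← FA.Regular.logDer_pow p _ hj3, ← FA.Regular.logDer_mul p _ hj3]
    rcases hsign with h | h
    · rw [h]
    · rw [h, hneg]
  -- Voronoi
  have hV : ∀ S : Finset (ZMod p), ∀ c : ℤ, (∀ a ∈ S, quadraticChar (ZMod p) a = c) →
      (0 : ZMod p) ∉ S →
      ((_root_.bernoulli (p / 2)).den : ZMod p) * (p / 2 : ℕ) *
        ∑ a ∈ S, (FA.OrderTheta.voronoiSum p a.val (p / 2) : ZMod p) =
      #S * (((c : ZMod p) - 1) * ((_root_.bernoulli (p / 2)).num : ZMod p)) := by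
    intro S c hS h0
    rw [mul_sum, ← smul_eq_mul (a := (#S : ZMod p)), Nat.cast_smul_eq_nsmul, ← sum_const]
    refine sum_congr rfl fun a ha => ?_
    rw [← voronoi_zmod hp5 hm2 hev (a := a.val)
        (by rw [ZMod.natCast_zmod_val]; exact fun h => h0 (h ▸ ha)),
      ZMod.natCast_zmod_val, ← hS a ha, cast_quadraticChar (by omega)]
  have hN' := hV (nonresSet p) (-1) (fun a ha => (mem_filter.1 ha).2) h0N
  have hR' := hV (resSet p) 1 (fun a ha => (mem_filter.1 ha).2) h0R
  have hm0 : ((p / 2 : ℕ) : ZMod p) ≠ 0 := by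
    rw [Ne, ZMod.natCast_eq_zero_iff]
    exact fun h => absurd (Nat.le_of_dvd (by omega) h) (by omega)
  have hcm : (#(nonresSet p) : ZMod p) = ((p / 2 : ℕ) : ZMod p) := by
    congr 1
    omega
  refine ⟨hden, fun h => ht ((ZMod.intCast_zmod_eq_zero_iff_dvd t p).2 h), ?_⟩
  rw [← ZMod.intCast_zmod_eq_zero_iff_dvd]
  push_cast
  refine mul_left_cancel₀ (mul_ne_zero h2 hm0) ?_
  rw [mul_zero]
  rw [hk] at hrel
  push_cast at hrel hN' hR'
  linear_combination
    (2 * ((p / 2 : ℕ) : ZMod p) * (classNumber F : ZMod p) *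
      ((_root_.bernoulli (p / 2)).den : ZMod p)) * hL -
    ((t : ZMod p) * ((_root_.bernoulli (p / 2)).den : ZMod p) * ((p / 2 : ℕ) : ZMod p)) * hrel -
    (t : ZMod p) * hN' + (t : ZMod p) * hR' +
    (2 * (t : ZMod p) * ((_root_.bernoulli (p / 2)).num : ZMod p)) * hcm

end FA.AnkenyArtinChowla
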