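import Fermat.Agent.AnkenyArtinChowla.Field

/-!
# The fundamental unit of `ℚ (√p)`

It exists, exceeds `1` in the embedding with `√p > 0`, and is `(t + b √p)/2` for integers `t, b`.
-/

set_option autoImplicit false
set_option linter.style.haveILetI false

noncomputable section

open NumberField Polynomial
open scoped Classical

namespace FA.AnkenyArtinChowla

variable {p : ℕ} [hp : Fact p.Prime]

theorem exists_field :
    ∃ (F : Type) (_ : Field F) (_ : NumberField F), Module.finrank ℚ F = 2 ∧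
      ∃ (φ φ' : F →+* ℝ) (s : F), φ s = Real.sqrt p ∧ φ' s = -Real.sqrt p ∧
        ∀ x, ∃ q r : ℚ, x = (q : F) + (r : F) * s := by
  set P : ℚ[X] := X ^ 2 - C (p : ℚ) with hP
  have hdeg : P.natDegree = 2 := natDegree_X_pow_sub_C
  have hP0 : P ≠ 0 := (monic_X_pow_sub_C _ two_ne_zero).ne_zero
  have hirr : Irreducible P := by
    refine irreducible_of_degree_le_three_of_not_isRoot ?_ fun x hx => ?_
    · rw [hdeg]
      exact Finset.mem_Icc.2 ⟨by norm_num, by norm_num⟩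
    · rw [IsRoot, hP, eval_sub, eval_pow, eval_X, eval_C, sub_eq_zero] at hx
      have h : ((|x| : ℚ) : ℝ) = Real.sqrt p := by
        rw [← Rat.cast_natCast (α := ℝ) p, ← hx, Rat.cast_pow, Real.sqrt_sq_eq_abs, Rat.cast_abs]
      exact sqrt_ne_ratCast _ h
  haveI : Fact (Irreducible P) := ⟨hirr⟩
  haveI : FiniteDimensional ℚ (AdjoinRoot P) := (AdjoinRoot.powerBasis hP0).finite
  haveI : CharZero (AdjoinRoot P) :=
    charZero_of_injective_algebraMap (algebraMap ℚ (AdjoinRoot P)).injective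
  have hroot : ∀ y : ℝ, y ^ 2 = p → P.eval₂ (algebraMap ℚ ℝ) y = 0 := fun y hy => by
    simp [hP, hy]
  refine ⟨AdjoinRoot P, inferInstance, { }, ?_, AdjoinRoot.lift (algebraMap ℚ ℝ) (Real.sqrt p)
      (hroot _ (Real.sq_sqrt (Nat.cast_nonneg p))),
    AdjoinRoot.lift (algebraMap ℚ ℝ) (-Real.sqrt p)
      (hroot _ (by rw [neg_sq, Real.sq_sqrt (Nat.cast_nonneg p)])),
    AdjoinRoot.root P, AdjoinRoot.lift_root _, AdjoinRoot.lift_root _, fun x => ?_⟩
  · rw [(AdjoinRoot.powerBasis hP0).finrank, AdjoinRoot.powerBasis_dim, hdeg]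
  · obtain ⟨g, hg, rfl⟩ := (AdjoinRoot.powerBasis hP0).exists_eq_aeval x
    rw [AdjoinRoot.powerBasis_dim, hdeg] at hg
    refine ⟨g.coeff 0, g.coeff 1, ?_⟩
    conv_lhs => rw [eq_X_add_C_of_natDegree_le_one (show g.natDegree ≤ 1 by omega)]
    simp [add_comm]

theorem exists_int_of_isIntegral {q : ℚ} (h : IsIntegral ℤ (q : ℝ)) : ∃ k : ℤ, q = k := by
  obtain ⟨k, hk⟩ := IsIntegrallyClosed.isIntegral_iff.1
    ((isIntegral_algebraMap_iff (algebraMap ℚ ℝ).injective).1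
      (by rwa [eq_ratCast] : IsIntegral ℤ (algebraMap ℚ ℝ q)))
  exact ⟨k, hk.symm⟩

theorem exists_halves_of_integral {F : Type*} [Field F] [NumberField F] {φ φ' : F →+* ℝ} {s : F}
    (hs : φ s = Real.sqrt p) (hs' : φ' s = -Real.sqrt p) (x : 𝓞 F) {q r : ℚ}
    (hx : (x : F) = q + r * s) : ∃ t b : ℤ, 2 * φ (x : F) = t + b * Real.sqrt p := by
  have hint : ∀ ψ : F →+* ℝ, IsIntegral ℤ (ψ (x : F)) := fun ψ =>
    (RingOfIntegers.isIntegral_coe x).map ψ.toIntAlgHom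
  have h1 : φ (x : F) = q + r * Real.sqrt p := by
    rw [hx, map_add, map_mul, map_ratCast, map_ratCast, hs]
  have h2 : φ' (x : F) = q - r * Real.sqrt p := by
    rw [hx, map_add, map_mul, map_ratCast, map_ratCast, hs', mul_neg, sub_eq_add_neg]
  obtain ⟨t, ht⟩ := exists_int_of_isIntegral (q := 2 * q) (by
    have := (hint φ).add (hint φ')
    rw [h1, h2] at this
    rwa [show ((2 * q : ℚ) : ℝ) = (q + r * Real.sqrt p) + (q - r * Real.sqrt p) by
      push_cast; ring])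
  obtain ⟨N, hN⟩ := exists_int_of_isIntegral (q := q ^ 2 - p * r ^ 2) (by
    have := (hint φ).mul (hint φ')
    rw [h1, h2] at this
    rwa [show ((q ^ 2 - p * r ^ 2 : ℚ) : ℝ) = (q + r * Real.sqrt p) * (q - r * Real.sqrt p) by
      push_cast
      linear_combination (r : ℝ) ^ 2 * Real.sq_sqrt (show (0 : ℝ) ≤ p from Nat.cast_nonneg p)])
  set w := 2 * r with hw
  have hkey : (p : ℤ) * w.num ^ 2 = (t ^ 2 - 4 * N) * (w.den : ℤ) ^ 2 := by
    have : ((p : ℚ) * (w.num : ℚ) ^ 2) = ((t : ℚ) ^ 2 - 4 * (N : ℚ)) * (w.den : ℚ) ^ 2 := by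
      rw [← Rat.mul_den_eq_num w, ← ht, ← hN, hw]
      ring
    exact_mod_cast this
  have hden : w.den = 1 := by
    have h := congrArg Int.natAbs hkey
    rw [Int.natAbs_mul, Int.natAbs_mul, Int.natAbs_pow, Int.natAbs_pow, Int.natAbs_natCast,
      Int.natAbs_natCast] at h
    have hd : w.den ^ 2 ∣ p :=
      (Nat.Coprime.pow 2 2 w.reduced.symm).dvd_of_dvd_mul_right ⟨_, h.trans (mul_comm _ _)⟩
    by_contra hne
    obtain ⟨l, hl, hld⟩ := Nat.exists_prime_and_dvd hne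
    obtain rfl := (Nat.prime_dvd_prime_iff_eq hl hp.out).1
      ((dvd_pow hld two_ne_zero).trans hd)
    have := Nat.le_of_dvd hl.pos ((pow_dvd_pow_of_dvd hld 2).trans hd)
    nlinarith [hl.two_le]
  refine ⟨t, w.num, ?_⟩
  rw [h1, ← Rat.cast_intCast (α := ℝ) t, ← ht, ← Rat.cast_intCast (α := ℝ) w.num,
    Rat.coe_int_num_of_den_eq_one hden, hw]
  push_cast
  ring

theorem exists_fundamental :
    ∃ (F : Type) (_ : Field F) (_ : NumberField F), Module.finrank ℚ F = 2 ∧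
      ∃ (φ : F →+* ℝ) (s : F) (ε : (𝓞 F)ˣ) (t b : ℤ), φ s = Real.sqrt p ∧
        (∀ u : (𝓞 F)ˣ, ∃ n : ℤ, u = ε ^ n ∨ u = -ε ^ n) ∧ 1 < φ ((ε : 𝓞 F) : F) ∧
        2 * φ ((ε : 𝓞 F) : F) = t + b * Real.sqrt p := by
  obtain ⟨F, hF₁, hF₂, hF, φ, φ', s, hs, hs', hrep⟩ := exists_field (p := p)
  refine ⟨F, hF₁, hF₂, hF, φ, s, ?_⟩
  haveI := isTotallyReal hF φ hs
  have hrank : Units.rank F = 1 := by
    rw [Units.rank, InfinitePlace.card_eq_nrRealPlaces_add_nrComplexPlaces,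
      IsTotallyReal.nrComplexPlaces_eq_zero, ← IsTotallyReal.finrank, hF]
  let i₀ : Fin (Units.rank F) := ⟨0, by omega⟩
  set η := Units.fundSystem F i₀ with hη
  haveI : Subsingleton (Fin (Units.rank F)) := by rw [hrank]; infer_instance
  have hgen : ∀ u : (𝓞 F)ˣ, ∃ n : ℤ, u = η ^ n ∨ u = -η ^ n := by
    intro u
    obtain ⟨⟨ζ, k⟩, hk, -⟩ := Units.exist_unique_eq_mul_prod F u
    refine ⟨k i₀, ?_⟩
    rw [hk, Fintype.prod_subsingleton _ i₀]
    rcases eq_one_or_neg_one_of_torsion φ ζ.2 with h | h <;> simp [h, hη]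
  have hlog : logAt φ η ≠ 0 := by
    intro h
    rw [logAt, Real.log_eq_zero] at h
    have h1 : |φ ((η : 𝓞 F) : F)| = 1 := by
      rcases h with h | h | h
      · simp at h
      · exact h
      · linarith [abs_nonneg (φ ((η : 𝓞 F) : F))]
    have hpm : η = 1 ∨ η = -1 := by
      rcases (abs_eq zero_le_one).1 h1 with h | h
      · exact Or.inl (Units.ext (RingOfIntegers.coe_injective (φ.injective (by simp [h]))))
      · exact Or.inr (Units.ext (RingOfIntegers.coe_injective (φ.injective (by simp [h]))))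
    have htor : η ∈ Units.torsion F := (CommGroup.mem_torsion _).2
      (isOfFinOrder_iff_pow_eq_one.2 ⟨2, two_pos, by rcases hpm with h | h <;> simp [h]⟩)
    obtain ⟨ζe, -, huniq⟩ := Units.exist_unique_eq_mul_prod F η
    have e1 := huniq (⟨η, htor⟩, fun _ => 0) (by simp)
    have e2 := huniq (1, fun _ => 1) (by simp [Fintype.prod_subsingleton _ i₀, hη])
    have := congrFun (congrArg Prod.snd (e1.trans e2.symm)) i₀
    simp at this
  obtain ⟨ε, hε, h1⟩ : ∃ ε : (𝓞 F)ˣ, (∀ u : (𝓞 F)ˣ, ∃ n : ℤ, u = ε ^ n ∨ u = -ε ^ n) ∧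
      1 < φ ((ε : 𝓞 F) : F) := by
    obtain ⟨ε, hεgen, hεlog⟩ : ∃ ε : (𝓞 F)ˣ,
        (∀ u : (𝓞 F)ˣ, ∃ n : ℤ, u = ε ^ n ∨ u = -ε ^ n) ∧ 0 < logAt φ ε := by
      rcases hlog.lt_or_gt with h | h
      · refine ⟨η⁻¹, fun u => ?_, ?_⟩
        · obtain ⟨n, hn⟩ := hgen u
          exact ⟨-n, by simpa [inv_zpow'] using hn⟩
        · rw [← zpow_neg_one, logAt_zpow]
          push_cast
          linarith
      · exact ⟨η, hgen, h⟩
    have habs : 1 < |φ ((ε : 𝓞 F) : F)| := (Real.log_pos_iff (abs_nonneg _)).1 hεlog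
    rcases lt_abs.1 habs with h | h
    · exact ⟨ε, hεgen, h⟩
    · refine ⟨-ε, fun u => ?_, by simpa using h⟩
      obtain ⟨n, hn⟩ := hεgen u
      refine ⟨n, ?_⟩
      rcases Int.even_or_odd n with he | ho
      · rwa [he.neg_zpow]
      · rw [ho.neg_zpow, neg_neg]
        exact hn.symm
  obtain ⟨q, r, hqr⟩ := hrep ((ε : 𝓞 F) : F)
  obtain ⟨t, b, htb⟩ := exists_halves_of_integral hs hs' (ε : 𝓞 F) hqr
  exact ⟨ε, t, b, hs, hε, h1, htb⟩

end FA.AnkenyArtinChowla
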