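import Fermat.Agent.ConductorDiscr.PlusPart
import Fermat.Agent.PadicDirichletL.NonVanish
import Fermat.Agent.Root.SummaryNegativePell

/-!
# The class number formula of `ℚ (√p)`

For a quadratic field `F` containing `√p`, `p ≡ 1 (mod 4)`, with fundamental unit `ε`:
`2 h log ε = ∑ log |1 - ζ^n| - ∑ log |1 - ζ^r|` over non-residues `n` and residues `r`.
-/

set_option autoImplicit false
set_option linter.style.haveILetI false

noncomputable section

open NumberField Finset DirichletCharacter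
open FA.OrderTheta (resSet nonresSet sum_split_quadratic gauss_halves)
open scoped Classical

namespace FA.AnkenyArtinChowla

variable {p : ℕ} [hp : Fact p.Prime]
variable {F : Type*} [Field F] [NumberField F]

theorem sqrt_ne_ratCast (r : ℚ) : (r : ℝ) ≠ Real.sqrt p := fun h =>
  hp.out.irrational_sqrt ⟨r, h⟩

section Quadratic

variable (hF : Module.finrank ℚ F = 2) (φ : F →+* ℝ) {s : F} (hs : φ s = Real.sqrt p)

include hF hs in
theorem eq_top_of_mem (M : IntermediateField ℚ F) (hM : s ∈ M) : M = ⊤ := by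
  refine ((IntermediateField.isSimpleOrder_of_finrank_prime ℚ F (by rw [hF]; exact Nat.prime_two)
    ).eq_bot_or_eq_top M).resolve_left fun h => ?_
  rw [h, IntermediateField.mem_bot] at hM
  obtain ⟨r, rfl⟩ := hM
  exact sqrt_ne_ratCast r ((map_ratCast φ r).symm.trans (by simpa using hs))

include hF hs in
theorem ringHom_ext {L : Type*} [Field L] [CharZero L] {ψ ψ' : F →+* L} (h : ψ s = ψ' s) :
    ψ = ψ' := by
  let M : IntermediateField ℚ F := (ψ.eqLocusField ψ').toIntermediateField fun r => by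
    show ψ (algebraMap ℚ F r) = ψ' (algebraMap ℚ F r)
    simp
  ext x
  exact (eq_top_of_mem hF φ hs M h ▸ IntermediateField.mem_top : x ∈ M)

omit [NumberField F] hp in
include hs in
theorem sq_eq : s ^ 2 = (p : F) :=
  φ.injective (by rw [map_pow, hs, Real.sq_sqrt (Nat.cast_nonneg p), map_natCast])

include hF hs in
theorem isTotallyReal : IsTotallyReal F := by
  refine ⟨fun w => InfinitePlace.isReal_iff.2 (ComplexEmbedding.isReal_iff.2 ?_)⟩
  refine ringHom_ext hF φ hs ?_
  have h : w.embedding s ^ 2 = ((Real.sqrt p : ℝ) : ℂ) ^ 2 := by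
    rw [← map_pow, sq_eq φ hs, map_natCast, ← Complex.ofReal_pow,
      Real.sq_sqrt (Nat.cast_nonneg p), Complex.ofReal_natCast]
  rw [ComplexEmbedding.conjugate_coe_eq]
  rcases sq_eq_sq_iff_eq_or_eq_neg.1 h with h | h <;> simp [h]

/-! ### The regulator -/

theorem eq_one_or_neg_one_of_torsion (φ : F →+* ℝ) {x : (𝓞 F)ˣ} (hx : x ∈ Units.torsion F) :
    x = 1 ∨ x = -1 := by
  obtain ⟨n, hn, hpow⟩ := isOfFinOrder_iff_pow_eq_one.1 ((CommGroup.mem_torsion _).1 hx)
  have h : (φ ((x : 𝓞 F) : F)) ^ n = 1 := by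
    rw [← map_pow, ← map_pow, ← Units.val_pow_eq_pow_val, hpow]
    simp
  have h' : |φ ((x : 𝓞 F) : F)| = 1 := (pow_eq_one_iff_of_nonneg (abs_nonneg _) hn.ne').1
    (by rw [← abs_pow, h, abs_one])
  rcases (abs_eq zero_le_one).1 h' with h1 | h1
  · exact Or.inl (Units.ext (RingOfIntegers.coe_injective (φ.injective (by simp [h1]))))
  · exact Or.inr (Units.ext (RingOfIntegers.coe_injective (φ.injective (by simp [h1]))))

/-- The logarithm of a unit at `φ`. -/
def logAt (u : (𝓞 F)ˣ) : ℝ := Real.log |φ ((u : 𝓞 F) : F)|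

omit [NumberField F] in
theorem logAt_mul (u v : (𝓞 F)ˣ) : logAt φ (u * v) = logAt φ u + logAt φ v := by
  simp only [logAt, Units.val_mul, map_mul, abs_mul]
  exact Real.log_mul (by simp) (by simp)

theorem logAt_neg (u : (𝓞 F)ˣ) : logAt φ (-u) = logAt φ u := by simp [logAt]

omit [NumberField F] in
theorem logAt_zpow (u : (𝓞 F)ˣ) (n : ℤ) : logAt φ (u ^ n) = n * logAt φ u := by
  rw [logAt, logAt, ← Real.log_zpow, ← abs_zpow, ← map_zpow₀]
  congr 3
  exact map_zpow ((Units.coeHom F).comp (Units.map (algebraMap (𝓞 F) F).toMonoidHom)) u n |>.trans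
    (by simp)

include hF hs in
theorem regulator_eq_log {ε : (𝓞 F)ˣ} (hgen : ∀ u : (𝓞 F)ˣ, ∃ n : ℤ, u = ε ^ n ∨ u = -ε ^ n)
    (h1 : 1 < φ ((ε : 𝓞 F) : F)) : Units.regulator F = Real.log (φ ((ε : 𝓞 F) : F)) := by
  haveI := isTotallyReal hF φ hs
  have hrank : Units.rank F = 1 := by
    rw [Units.rank, InfinitePlace.card_eq_nrRealPlaces_add_nrComplexPlaces,
      IsTotallyReal.nrComplexPlaces_eq_zero, ← IsTotallyReal.finrank, hF]
  have hcard : Fintype.card (InfinitePlace F) = 2 := by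
    have : Units.rank F = Fintype.card (InfinitePlace F) - 1 := rfl
    have : 0 < Fintype.card (InfinitePlace F) := Fintype.card_pos
    omega
  set w : InfinitePlace F := InfinitePlace.mk (Complex.ofRealHom.comp φ) with hw
  obtain ⟨w', hw'⟩ := Fintype.exists_ne_of_one_lt_card (by omega) w
  have hone : Fintype.card {v // v ≠ w'} = 1 := by
    rw [Fintype.card_subtype_compl, Fintype.card_subtype_eq]; omega
  haveI : Unique {v // v ≠ w'} := (Fintype.equivFinOfCardEq hone).unique
  have e : {v // v ≠ w'} ≃ Fin (Units.rank F) :=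
    Fintype.equivFinOfCardEq (hone.trans hrank.symm)
  rw [Units.regulator_eq_det F w' e, Matrix.det_unique, Matrix.of_apply,
    show ((default : {v // v ≠ w'}) : InfinitePlace F) = w from
      congrArg Subtype.val (Subsingleton.elim (α := {v // v ≠ w'}) default ⟨w, hw'.symm⟩),
    IsTotallyReal.mult_eq, Nat.cast_one, one_mul]
  set η := Units.fundSystem F (e default) with hη
  have hwη : Real.log (w (η : F)) = logAt φ η := by
    rw [hw, InfinitePlace.apply, logAt, RingHom.comp_apply, Complex.ofRealHom_eq_coe,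
      Complex.norm_real, Real.norm_eq_abs]
  rw [hwη]
  have hεlog : logAt φ ε = Real.log (φ ((ε : 𝓞 F) : F)) := by
    rw [logAt, abs_of_pos (zero_lt_one.trans h1)]
  have hεpos : 0 < logAt φ ε := hεlog ▸ Real.log_pos h1
  obtain ⟨n, hn⟩ := hgen η
  have hη' : logAt φ η = n * logAt φ ε := by
    rcases hn with hn | hn <;> rw [hn]
    · exact logAt_zpow φ ε n
    · rw [logAt_neg, logAt_zpow]
  obtain ⟨⟨ζ, k⟩, hk, -⟩ := Units.exist_unique_eq_mul_prod F ε
  have hε : logAt φ ε = ∑ i, (k i : ℝ) * logAt φ η := by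
    have hsub : Subsingleton (Fin (Units.rank F)) := by rw [hrank]; infer_instance
    rw [Fintype.sum_subsingleton _ (e default), ← logAt_zpow, hk,
      Fintype.prod_subsingleton _ (e default), logAt_mul]
    rcases eq_one_or_neg_one_of_torsion φ ζ.2 with h | h <;> simp [h, logAt, hη]
  have hnk : (n : ℝ) * ∑ i, (k i : ℝ) = 1 := by
    rw [← sum_mul, hη'] at hε
    refine mul_right_cancel₀ hεpos.ne' ?_
    linear_combination -hε
  have hn1 : n = 1 ∨ n = -1 := Int.eq_one_or_neg_one_of_mul_eq_one (by exact_mod_cast hnk)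
  rw [← hεlog, hη', abs_mul, abs_of_pos hεpos]
  rcases hn1 with rfl | rfl <;> simp

/-! ### The embedding in `ℚ (ζ)` -/

include hF hs in
theorem exists_lift {K : Type*} [Field K] [NumberField K] (ι : K →+* ℂ) {g : K}
    (hg : ι g = (Real.sqrt p : ℂ)) : ∃ f : F →ₐ[ℚ] K, ∀ x, ι (f x) = ((φ x : ℝ) : ℂ) := by
  let ιA : K →ₐ[ℚ] ℂ := ι.toRatAlgHom
  let φA : F →ₐ[ℚ] ℂ := (Complex.ofRealHom.comp φ).toRatAlgHom
  have htop : ιA.fieldRange.comap φA = ⊤ :=
    eq_top_of_mem hF φ hs _ (show φA s ∈ ιA.fieldRange from ⟨g, by simp [ιA, φA, hg, hs]⟩)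
  have hmem : ∀ x, φA x ∈ ιA.fieldRange := fun x =>
    (htop ▸ IntermediateField.mem_top : x ∈ ιA.fieldRange.comap φA)
  refine ⟨(AlgEquiv.ofInjectiveField ιA).symm.toAlgHom.comp
    (φA.codRestrict ιA.fieldRange.toSubalgebra hmem), fun x => ?_⟩
  exact congrArg Subtype.val ((AlgEquiv.ofInjectiveField ιA).apply_symm_apply ⟨φA x, hmem x⟩)

end Quadratic

/-! ### The character -/

variable (p) in
/-- The quadratic character with complex values. -/
def legendre : DirichletCharacter ℂ p :=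
  (quadraticChar (ZMod p)).ringHomComp (Int.castRingHom ℂ)

theorem legendre_apply (a : ZMod p) : legendre p a = (quadraticChar (ZMod p) a : ℂ) := rfl

theorem eq_legendre (hp2 : p ≠ 2) {χ : DirichletCharacter ℂ p} (h2 : χ ^ 2 = 1) (h1 : χ ≠ 1) :
    χ = legendre p := by
  obtain ⟨γ, hγ⟩ := IsCyclic.exists_generator (α := (ZMod p)ˣ)
  have key : ∀ ψ : DirichletCharacter ℂ p, ψ ^ 2 = 1 → ψ ≠ 1 → ψ γ = -1 := by
    intro ψ h2 h1
    have h : ψ γ ^ 2 = 1 := by rw [← MulChar.pow_apply' ψ two_ne_zero, h2, MulChar.one_apply_coe]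
    refine (sq_eq_one_iff.1 h).resolve_left fun hγ1 => h1 (MulChar.ext fun a => ?_)
    obtain ⟨k, rfl⟩ := Subgroup.mem_zpowers_iff.1 (hγ a)
    rw [MulChar.one_apply_coe, ← MulChar.coe_toUnitHom, map_zpow,
      show ψ.toUnitHom γ = 1 from Units.ext (by rw [MulChar.coe_toUnitHom, hγ1, Units.val_one]),
      one_zpow, Units.val_one]
  have hl : legendre p ^ 2 = 1 ∧ legendre p ≠ 1 := by
    have hq := quadraticChar_isQuadratic (ZMod p)
    refine ⟨(hq.comp (Int.castRingHom ℂ)).sq_eq_one, ?_⟩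
    rw [legendre, Ne, MulChar.ringHomComp_eq_one_iff (Int.cast_injective)]
    exact quadraticChar_ne_one ((ZMod.ringChar_zmod_n p).trans_ne hp2)
  refine MulChar.ext fun a => ?_
  obtain ⟨k, rfl⟩ := Subgroup.mem_zpowers_iff.1 (hγ a)
  rw [← MulChar.coe_toUnitHom, ← MulChar.coe_toUnitHom, map_zpow, map_zpow,
    show χ.toUnitHom γ = (legendre p).toUnitHom γ from Units.ext (by
      rw [MulChar.coe_toUnitHom, MulChar.coe_toUnitHom, key χ h2 h1, key _ hl.1 hl.2])]

theorem LFunction_primitiveCharacter {n : ℕ} [NeZero n] {χ : DirichletCharacter ℂ n}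
    (h : χ.conductor = n) : LFunction χ.primitiveCharacter 1 = LFunction χ 1 := by
  have key : ∀ (m : ℕ) [NeZero m] (hm : m ∣ n) (ψ : DirichletCharacter ℂ m), m = n →
      changeLevel hm ψ = χ → LFunction ψ 1 = LFunction χ 1 := by
    intro m _ hm ψ hmn hψ
    subst hmn
    rw [changeLevel_self] at hψ
    rw [hψ]
  exact key _ _ _ h (changeLevel_primitiveCharacter χ)

/-! ### The formula -/

theorem residue_and_discr (hp4 : p % 4 = 1) (K : Type) [Field K] [NumberField K]
    [IsCyclotomicExtension {p} ℚ K] (hF : Module.finrank ℚ F = 2) (f : F →ₐ[ℚ] K) :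
    (dedekindZeta_residue F : ℂ) = LFunction (legendre p) 1 ∧ (discr F).natAbs = p := by
  haveI : IsAbelianGalois ℚ K := IsCyclotomicExtension.isAbelianGalois {p} ℚ K
  let e : F ≃+* f.fieldRange := (AlgEquiv.ofInjectiveField f).toRingEquiv
  set X := univ.filter fun χ => χ ∈ FA.AbelianZeta.fieldChars p K f.fieldRange with hX
  have hX1 : (1 : DirichletCharacter ℂ p) ∈ X := mem_filter.2 ⟨mem_univ _, one_mem _⟩
  have hXc : #X = 2 := (FA.ConductorDiscr.card_chars_eq (n := p) K f.fieldRange e).trans hF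
  obtain ⟨χ, hχ⟩ := card_eq_one.1 (show #(X.erase 1) = 1 by rw [card_erase_of_mem hX1, hXc])
  obtain ⟨hχ1, hχX⟩ := mem_erase.1 (hχ ▸ mem_singleton_self χ : χ ∈ X.erase 1)
  have hsq : χ ^ 2 = 1 := by
    by_contra hne
    have h := mem_singleton.1 (hχ ▸ mem_erase.2 ⟨hne, mem_filter.2 ⟨mem_univ _,
      pow_mem (mem_filter.1 hχX).2 2⟩⟩ : χ ^ 2 ∈ ({χ} : Finset _))
    exact hχ1 (by rwa [pow_two, mul_eq_left] at h)
  obtain rfl := eq_legendre (by omega) hsq hχ1
  have hcond : (legendre p).conductor = p :=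
    ((Nat.dvd_prime hp.out).1 (conductor_dvd_level _)).resolve_left fun h =>
      hχ1 ((eq_one_iff_conductor_eq_one (χ := legendre p)).2 h)
  constructor
  · rw [FA.AbelianZeta.residue_eq_prod hX1 fun z hz =>
      FA.ConductorDiscr.dedekindZeta_eq_prodL (n := p) K f.fieldRange e hz, hχ, prod_singleton,
      LFunction_primitiveCharacter hcond]
  · rw [FA.ConductorDiscr.discr_eq_prod (n := p) K f.fieldRange e, ← hX,
      ← mul_prod_erase X _ hX1, hχ, prod_singleton, hcond, conductor_one, one_mul]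

theorem two_mul_classNumber_mul_log (hp4 : p % 4 = 1) (hF : Module.finrank ℚ F = 2)
    (φ : F →+* ℝ) {s : F} (hs : φ s = Real.sqrt p) {ε : (𝓞 F)ˣ}
    (hgen : ∀ u : (𝓞 F)ˣ, ∃ n : ℤ, u = ε ^ n ∨ u = -ε ^ n) (h1 : 1 < φ ((ε : 𝓞 F) : F))
    (K : Type) [Field K] [NumberField K] [IsCyclotomicExtension {p} ℚ K] (f : F →ₐ[ℚ] K) :
    2 * (classNumber F : ℝ) * Real.log (φ ((ε : 𝓞 F) : F)) =
      ∑ a ∈ nonresSet p, Real.log ‖1 - (ZMod.stdAddChar a : ℂ)‖ -
        ∑ a ∈ resSet p, Real.log ‖1 - (ZMod.stdAddChar a : ℂ)‖ := by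
  obtain ⟨hres, hd⟩ := residue_and_discr hp4 K hF f
  haveI := isTotallyReal hF φ hs
  have hw : Units.torsionOrder F = 2 := by
    rw [Units.torsionOrder, Nat.card_eq_two_iff]
    refine ⟨1, ⟨-1, (CommGroup.mem_torsion _).2
      (isOfFinOrder_iff_pow_eq_one.2 ⟨2, two_pos, by simp⟩)⟩, by simp [← Subtype.coe_ne_coe],
      Set.eq_univ_of_forall fun x => ?_⟩
    rcases eq_one_or_neg_one_of_torsion φ x.2 with h | h
    · exact Or.inl (Subtype.ext h)
    · exact Or.inr (Subtype.ext h)
  have habs : (|discr F| : ℝ) = (p : ℝ) := by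
    rw [← Int.cast_abs, Int.abs_eq_natAbs, hd, Int.cast_natCast]
  have heven : (legendre p).Even := by
    show legendre p (-1) = 1
    rw [legendre_apply, (quadraticChar_one_iff_isSquare (neg_ne_zero.2 one_ne_zero)).2
      (ZMod.exists_sq_eq_neg_one_iff.2 (by omega)), Int.cast_one]
  have hprim : (legendre p).IsPrimitive := by
    rw [isPrimitive_def]
    refine ((Nat.dvd_prime hp.out).1 (conductor_dvd_level _)).resolve_left fun h => ?_
    have h1' := (eq_one_iff_conductor_eq_one (χ := legendre p)).2 h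
    rw [legendre, MulChar.ringHomComp_eq_one_iff (Int.cast_injective)] at h1'
    exact quadraticChar_ne_one ((ZMod.ringChar_zmod_n p).trans_ne (by omega)) h1'
  have hinv : (legendre p)⁻¹ = legendre p :=
    ((quadraticChar_isQuadratic (ZMod p)).comp (Int.castRingHom ℂ)).inv
  have hgauss : gaussSum (legendre p) (ZMod.stdAddChar (N := p)) = (Real.sqrt p : ℂ) := by
    rw [gaussSum]
    simp only [legendre_apply]
    rw [FA.Summary.quadraticGaussSum_sign p (by omega), if_pos hp4]
  rw [FA.PadicDirichletL.lFunction_one_even hp.out.one_lt hprim heven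
    (ZMod.isPrimitive_stdAddChar p), hgauss, hinv, dedekindZeta_residue_def, hw,
    IsTotallyReal.nrComplexPlaces_eq_zero, ← IsTotallyReal.finrank, hF, habs,
    regulator_eq_log hF φ hs hgen h1, pow_zero, mul_one, sum_split_quadratic, MulChar.map_zero,
    zero_mul, zero_add] at hres
  set L := fun a : ZMod p => Real.log ‖1 - (ZMod.stdAddChar a : ℂ)‖ with hL
  have hsum : (∑ a ∈ resSet p, legendre p a * (L a : ℂ)) +
      ∑ a ∈ nonresSet p, legendre p a * (L a : ℂ) =
        (((∑ a ∈ resSet p, L a) - ∑ a ∈ nonresSet p, L a : ℝ) : ℂ) := by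
    rw [sum_congr rfl fun a (ha : a ∈ resSet p) => show legendre p a * (L a : ℂ) = (L a : ℂ) by
        rw [legendre_apply, (mem_filter.1 ha).2]; simp,
      sum_congr (s₁ := nonresSet p) rfl fun a (ha : a ∈ nonresSet p) =>
        show legendre p a * (L a : ℂ) = -(L a : ℂ) by
          rw [legendre_apply, (mem_filter.1 ha).2]; simp, sum_neg_distrib]
    push_cast
    ring
  rw [hsum, show -((Real.sqrt p : ℂ) / (p : ℂ)) = (((-(Real.sqrt p / p) : ℝ)) : ℂ) by
      push_cast; rfl,
    ← Complex.ofReal_mul, Complex.ofReal_inj] at hres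
  have hp0 : (0 : ℝ) < p := Nat.cast_pos.2 hp.out.pos
  have hsq := Real.mul_self_sqrt hp0.le
  field_simp at hres
  rw [Real.sq_sqrt hp0.le] at hres
  push_cast at hres
  refine mul_right_cancel₀ hp0.ne' ?_
  linear_combination hres / 2

end FA.AnkenyArtinChowla
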